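/-
S25 / block ABEL, sub-block AB-ALG (helper747 skeleton), leaf **C4** (first half):
graph ideals commute with base change, `graphIdeal_map`.
Also: generators of the graph ideal, the `A`-linear retraction `R → graphIdeal φ`.
helper147.
-/
import Fermat.Agent.S25.H747.AbAlgDefs

set_option autoImplicit false
universe u
open scoped TensorProduct

namespace Fermat.Agent.S25.H147

open Fermat.Agent.S25 Fermat.Agent.S25.H747

section GraphIdealMap

variable {k : Type u} [Field k]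
  {B : Type u} [CommRing B] [Algebra k B]
  {A A' : Type u} [CommRing A] [Algebra k A] [CommRing A'] [Algebra k A']

/-- The square `evalHom (ψ ∘ φ) ∘ (ψ ⊗ id) = ψ ∘ evalHom φ`. -/
theorem evalHom_tensorMapLeft (ψ : A →ₐ[k] A') (φ : B →ₐ[k] A) (z : A ⊗[k] B) :
    evalHom (ψ.comp φ) (tensorMapLeft k ψ B z) = ψ (evalHom φ z) := by
  induction z using TensorProduct.induction_on with
  | zero => simp
  | tmul a b => simp [tensorMapLeft]
  | add x y hx hy => simp only [map_add, hx, hy]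

@[simp] theorem tensorMapLeft_tmul (ψ : A →ₐ[k] A') (a : A) (b : B) :
    tensorMapLeft k ψ B (a ⊗ₜ[k] b) = ψ a ⊗ₜ[k] b := by
  simp [tensorMapLeft]

/-- The standard generator `1 ⊗ b - φ b ⊗ 1` of the graph ideal. -/
theorem gen_mem_graphIdeal (φ : B →ₐ[k] A) (b : B) :
    (1 : A) ⊗ₜ[k] b - φ b ⊗ₜ[k] (1 : B) ∈ graphIdeal φ := by
  simp [graphIdeal, RingHom.mem_ker]

/-- `z - ev(z) ⊗ 1` lies in the ideal generated by the standard generators. -/
theorem sub_evalHom_mem_span (φ : B →ₐ[k] A) (z : A ⊗[k] B) :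
    z - evalHom φ z ⊗ₜ[k] (1 : B) ∈
      Ideal.span (Set.range fun b : B => (1 : A) ⊗ₜ[k] b - φ b ⊗ₜ[k] (1 : B)) := by
  induction z using TensorProduct.induction_on with
  | zero => simp
  | tmul a b =>
    have : a ⊗ₜ[k] b - evalHom φ (a ⊗ₜ[k] b) ⊗ₜ[k] (1 : B) =
        (a ⊗ₜ[k] (1 : B)) * ((1 : A) ⊗ₜ[k] b - φ b ⊗ₜ[k] (1 : B)) := by
      simp [mul_sub, Algebra.TensorProduct.tmul_mul_tmul]
    rw [this]
    exact Ideal.mul_mem_left _ _ (Ideal.subset_span ⟨b, rfl⟩)
  | add x y hx hy =>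
    have : x + y - evalHom φ (x + y) ⊗ₜ[k] (1 : B) =
        (x - evalHom φ x ⊗ₜ[k] (1 : B)) + (y - evalHom φ y ⊗ₜ[k] (1 : B)) := by
      rw [map_add, TensorProduct.add_tmul]; abel
    rw [this]
    exact Ideal.add_mem _ hx hy

/-- The graph ideal is generated by the elements `1 ⊗ b - φ b ⊗ 1`. -/
theorem graphIdeal_eq_span (φ : B →ₐ[k] A) :
    graphIdeal φ =
      Ideal.span (Set.range fun b : B => (1 : A) ⊗ₜ[k] b - φ b ⊗ₜ[k] (1 : B)) := by
  apply le_antisymm
  · intro z hz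
    have h := sub_evalHom_mem_span φ z
    have h0 : evalHom φ z = 0 := hz
    simpa [h0] using h
  · rw [Ideal.span_le]
    rintro _ ⟨b, rfl⟩
    exact gen_mem_graphIdeal φ b

/-- **C4 (ideal form), general version** (no hypothesis on `k`). -/
theorem graphIdeal_map' (ψ : A →ₐ[k] A') (φ : B →ₐ[k] A) :
    (graphIdeal φ).map (tensorMapLeft k ψ B) = graphIdeal (ψ.comp φ) := by
  apply le_antisymm
  · rw [Ideal.map_le_iff_le_comap]
    intro z hz
    have h0 : evalHom φ z = 0 := hz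
    show evalHom (ψ.comp φ) (tensorMapLeft k ψ B z) = 0
    rw [evalHom_tensorMapLeft, h0, map_zero]
  · rw [graphIdeal_eq_span (ψ.comp φ), Ideal.span_le]
    rintro _ ⟨b, rfl⟩
    have : (1 : A') ⊗ₜ[k] b - (ψ.comp φ) b ⊗ₜ[k] (1 : B) =
        tensorMapLeft k ψ B ((1 : A) ⊗ₜ[k] b - φ b ⊗ₜ[k] (1 : B)) := by
      simp
    show (1 : A') ⊗ₜ[k] b - (ψ.comp φ) b ⊗ₜ[k] (1 : B) ∈ _
    rw [this]
    exact Ideal.mem_map_of_mem _ (gen_mem_graphIdeal φ b)

end GraphIdealMap

section Frozen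

set_option linter.unusedSectionVars false

variable {k : Type u} [Field k] [IsAlgClosed k]

/-- **C4.** Graph ideals commute with base change (exact frozen statement of
`H747.Skel.graphIdeal_map`). -/
theorem graphIdeal_map {B : Type u} [CommRing B] [Algebra k B]
    {A A' : Type u} [CommRing A] [Algebra k A] [CommRing A'] [Algebra k A']
    (ψ : A →ₐ[k] A') (φ : B →ₐ[k] A) :
    (graphIdeal φ).map (tensorMapLeft k ψ B) = graphIdeal (ψ.comp φ) :=
  graphIdeal_map' ψ φ

end Frozen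

end Fermat.Agent.S25.H147
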