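/-
S25 / block ABEL, sub-block AB-ALG (helper747 skeleton), leaf **C5**:
the three ideals `ptI₀`, `ptI₁`, `ptI₀₁` of a chart point commute with base change.
Inputs: C4 (`H147.graphIdeal_map'`), H851 contraction calculus (`map_contr_baseChange`).
helper147.
-/
import Fermat.Agent.S25.H147.GraphIdealMap
import Fermat.Agent.S25.H851.Contraction

set_option autoImplicit false
set_option linter.unusedSectionVars false
set_option linter.style.haveILetI false
set_option linter.unusedVariables false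
universe u
open scoped TensorProduct

namespace Fermat.Agent.S25.H147

open Fermat.Agent.S25 Fermat.Agent.S25.H747

section Cospan

variable {k : Type u} [Field k]

theorem algebraMap_tensorRight_tmul (A B B' : Type u) [CommRing A] [Algebra k A] [CommRing B]
    [CommRing B'] [Algebra k B] [Algebra k B'] [Algebra B B'] [IsScalarTower k B B'] (a : A)
    (b : B) :
    algebraMap (A ⊗[k] B) (A ⊗[k] B') (a ⊗ₜ[k] b) = a ⊗ₜ[k] algebraMap B B' b := by
  change tensorMapRight k A B B' (a ⊗ₜ[k] b) = _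
  simp [tensorMapRight]

/-- The maps `tensorMapLeft` form a morphism of cospans. -/
theorem tensorMapLeft_comp_algebraMap_right {A A' : Type u} [CommRing A] [Algebra k A]
    [CommRing A'] [Algebra k A'] (ψ : A →ₐ[k] A') (B B' : Type u) [CommRing B] [CommRing B']
    [Algebra k B] [Algebra k B'] [Algebra B B'] [IsScalarTower k B B'] :
    (tensorMapLeft k ψ B').comp (algebraMap (A ⊗[k] B) (A ⊗[k] B')) =
      (algebraMap (A' ⊗[k] B) (A' ⊗[k] B')).comp (tensorMapLeft k ψ B) := by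
  apply RingHom.ext
  intro z
  induction z using TensorProduct.induction_on with
  | zero => simp
  | tmul a b => simp [algebraMap_tensorRight_tmul]
  | add z w hz hw => simp only [map_add, hz, hw]

/-- `A ⊗ B[1/x]` is the localization of `A ⊗ B` at `1 ⊗ x`. -/
theorem isLocalization_away_tensorRight (A B B' : Type u) [CommRing A] [Algebra k A]
    [CommRing B] [CommRing B'] [Algebra k B]
    [Algebra k B'] [Algebra B B'] [IsScalarTower k B B'] (x : B) [IsLocalization.Away x B'] :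
    IsLocalization.Away ((1 : A) ⊗ₜ[k] x : A ⊗[k] B) (A ⊗[k] B') := by
  have H : (algebraMap (A ⊗[k] B) (A ⊗[k] B')).comp
      (Algebra.TensorProduct.includeRight (R := k) (A := A) (B := B)).toRingHom =
      (Algebra.TensorProduct.includeRight (R := k) (A := A) (B := B')).toRingHom.comp
        (algebraMap B B') := by
    ext b
    simp [algebraMap_tensorRight_tmul]
  have := IsLocalization.tensorProduct_tensorProduct_right k A (Submonoid.powers x) B' H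
  rw [Submonoid.map_powers] at this
  exact this

variable {B : Type u} [CommRing B] [Algebra k B] {A : Type u} [CommRing A] [Algebra k A]

/-- `A → (A ⊗ B) ⧸ graphIdeal φ` is surjective. -/
theorem algebraMap_quotient_graphIdeal_surjective (φ : B →ₐ[k] A) :
    Function.Surjective (algebraMap A ((A ⊗[k] B) ⧸ graphIdeal φ)) := by
  intro q
  obtain ⟨z, rfl⟩ := Ideal.Quotient.mk_surjective q
  refine ⟨evalHom φ z, ?_⟩
  rw [IsScalarTower.algebraMap_apply A (A ⊗[k] B) ((A ⊗[k] B) ⧸ graphIdeal φ)]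
  rw [Ideal.Quotient.algebraMap_eq, Ideal.Quotient.eq]
  show evalHom φ _ = 0
  rw [map_sub]
  simp

instance finite_quotient_graphIdeal (φ : B →ₐ[k] A) :
    Module.Finite A ((A ⊗[k] B) ⧸ graphIdeal φ) :=
  Module.Finite.of_surjective (Algebra.linearMap A ((A ⊗[k] B) ⧸ graphIdeal φ))
    (algebraMap_quotient_graphIdeal_surjective φ)

end Cospan

section Frozen

variable {k : Type u} [Field k] [IsAlgClosed k]
  {B₀ B₁ B₀₁ : Type u} [CommRing B₀] [CommRing B₁] [CommRing B₀₁]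
  [Algebra k B₀] [Algebra k B₁] [Algebra k B₀₁] [Algebra B₀ B₀₁] [Algebra B₁ B₀₁]
  [IsScalarTower k B₀ B₀₁] [IsScalarTower k B₁ B₀₁]
  {x : B₀} {y : B₁} {e : B₁ →ₐ[k] k}

/-- Contraction of a graph ideal from chart `1` to chart `0` commutes with base change. -/
theorem contr_graphIdeal_map₀ (hC : IsCurveChart k B₀ B₁ B₀₁ x y e)
    {A A' : Type u} [CommRing A] [Algebra k A] [CommRing A'] [Algebra k A']
    (ψ : A →ₐ[k] A') (φ : B₁ →ₐ[k] A) :
    (H851.contr (A ⊗[k] B₀) (A ⊗[k] B₀₁) (graphIdeal φ)).map (tensorMapLeft k ψ B₀) =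
      H851.contr (A' ⊗[k] B₀) (A' ⊗[k] B₀₁) (graphIdeal (ψ.comp φ)) := by
  haveI := hC.away₀
  haveI : IsLocalization.Away ((1 : A) ⊗ₜ[k] x : A ⊗[k] B₀) (A ⊗[k] B₀₁) :=
    isLocalization_away_tensorRight A B₀ B₀₁ x
  haveI : IsLocalization.Away (tensorMapLeft k ψ B₀ ((1 : A) ⊗ₜ[k] x)) (A' ⊗[k] B₀₁) := by
    rw [tensorMapLeft_tmul, map_one]
    exact isLocalization_away_tensorRight A' B₀ B₀₁ x
  have hxy : algebraMap (A ⊗[k] B₁) (A ⊗[k] B₀₁) ((1 : A) ⊗ₜ[k] y) *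
      algebraMap (A ⊗[k] B₀) (A ⊗[k] B₀₁) ((1 : A) ⊗ₜ[k] x) = 1 := by
    rw [algebraMap_tensorRight_tmul, algebraMap_tensorRight_tmul,
      Algebra.TensorProduct.tmul_mul_tmul, mul_one, mul_comm, hC.mul_eq_one]
    rfl
  obtain ⟨u, hu, r, hr⟩ := H851.exists_mem_contr_isCoprime (A := A)
    ((1 : A) ⊗ₜ[k] y : A ⊗[k] B₁) ((1 : A) ⊗ₜ[k] x : A ⊗[k] B₀) hxy (graphIdeal φ)
  have hc : IsCoprime u ((1 : A) ⊗ₜ[k] x : A ⊗[k] B₀) := ⟨1, -r, by rw [hr]; ring⟩
  have := H851.map_contr_baseChange ((1 : A) ⊗ₜ[k] x : A ⊗[k] B₀)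
    (tensorMapLeft k ψ B₁) (tensorMapLeft k ψ B₀) (tensorMapLeft k ψ B₀₁)
    (tensorMapLeft_comp_algebraMap_right ψ B₁ B₀₁)
    (tensorMapLeft_comp_algebraMap_right ψ B₀ B₀₁) (graphIdeal φ) hu hc
  rw [this, graphIdeal_map' ψ φ]

/-- Contraction of a graph ideal from chart `0` to chart `1` commutes with base change. -/
theorem contr_graphIdeal_map₁ (hC : IsCurveChart k B₀ B₁ B₀₁ x y e)
    {A A' : Type u} [CommRing A] [Algebra k A] [CommRing A'] [Algebra k A']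
    (ψ : A →ₐ[k] A') (φ : B₀ →ₐ[k] A) :
    (H851.contr (A ⊗[k] B₁) (A ⊗[k] B₀₁) (graphIdeal φ)).map (tensorMapLeft k ψ B₁) =
      H851.contr (A' ⊗[k] B₁) (A' ⊗[k] B₀₁) (graphIdeal (ψ.comp φ)) := by
  haveI := hC.away₁
  haveI : IsLocalization.Away ((1 : A) ⊗ₜ[k] y : A ⊗[k] B₁) (A ⊗[k] B₀₁) :=
    isLocalization_away_tensorRight A B₁ B₀₁ y
  haveI : IsLocalization.Away (tensorMapLeft k ψ B₁ ((1 : A) ⊗ₜ[k] y)) (A' ⊗[k] B₀₁) := by
    rw [tensorMapLeft_tmul, map_one]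
    exact isLocalization_away_tensorRight A' B₁ B₀₁ y
  have hxy : algebraMap (A ⊗[k] B₀) (A ⊗[k] B₀₁) ((1 : A) ⊗ₜ[k] x) *
      algebraMap (A ⊗[k] B₁) (A ⊗[k] B₀₁) ((1 : A) ⊗ₜ[k] y) = 1 := by
    rw [algebraMap_tensorRight_tmul, algebraMap_tensorRight_tmul,
      Algebra.TensorProduct.tmul_mul_tmul, mul_one, hC.mul_eq_one]
    rfl
  obtain ⟨u, hu, r, hr⟩ := H851.exists_mem_contr_isCoprime (A := A)
    ((1 : A) ⊗ₜ[k] x : A ⊗[k] B₀) ((1 : A) ⊗ₜ[k] y : A ⊗[k] B₁) hxy (graphIdeal φ)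
  have hc : IsCoprime u ((1 : A) ⊗ₜ[k] y : A ⊗[k] B₁) := ⟨1, -r, by rw [hr]; ring⟩
  have := H851.map_contr_baseChange ((1 : A) ⊗ₜ[k] y : A ⊗[k] B₁)
    (tensorMapLeft k ψ B₀) (tensorMapLeft k ψ B₁) (tensorMapLeft k ψ B₀₁)
    (tensorMapLeft_comp_algebraMap_right ψ B₀ B₀₁)
    (tensorMapLeft_comp_algebraMap_right ψ B₁ B₀₁) (graphIdeal φ) hu hc
  rw [this, graphIdeal_map' ψ φ]

/-- **C5.** The three ideals of a chart point commute with base change. -/
theorem ptI₀_map (hC : IsCurveChart k B₀ B₁ B₀₁ x y e)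
    {A A' : Type u} [CommRing A] [Algebra k A] [CommRing A'] [Algebra k A']
    (ψ : A →ₐ[k] A') (P : H746.ChartPt k B₀ B₁ A) :
    (ptI₀ B₀₁ P).map (tensorMapLeft k ψ B₀) = ptI₀ B₀₁ (P.map ψ) := by
  rcases P with φ | φ
  · exact graphIdeal_map' ψ φ
  · exact contr_graphIdeal_map₀ hC ψ φ

theorem ptI₁_map (hC : IsCurveChart k B₀ B₁ B₀₁ x y e)
    {A A' : Type u} [CommRing A] [Algebra k A] [CommRing A'] [Algebra k A']
    (ψ : A →ₐ[k] A') (P : H746.ChartPt k B₀ B₁ A) :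
    (ptI₁ B₀₁ P).map (tensorMapLeft k ψ B₁) = ptI₁ B₀₁ (P.map ψ) := by
  rcases P with φ | φ
  · exact contr_graphIdeal_map₁ hC ψ φ
  · exact graphIdeal_map' ψ φ

theorem ptI₀₁_map (hC : IsCurveChart k B₀ B₁ B₀₁ x y e)
    {A A' : Type u} [CommRing A] [Algebra k A] [CommRing A'] [Algebra k A']
    (ψ : A →ₐ[k] A') (P : H746.ChartPt k B₀ B₁ A) :
    (ptI₀₁ B₀₁ P).map (tensorMapLeft k ψ B₀₁) = ptI₀₁ B₀₁ (P.map ψ) := by
  rcases P with φ | φ
  · show ((graphIdeal φ).map (algebraMap (A ⊗[k] B₀) (A ⊗[k] B₀₁))).map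
        (tensorMapLeft k ψ B₀₁) =
      (graphIdeal (ψ.comp φ)).map (algebraMap (A' ⊗[k] B₀) (A' ⊗[k] B₀₁))
    rw [Ideal.map_map, tensorMapLeft_comp_algebraMap_right ψ B₀ B₀₁, ← Ideal.map_map,
      graphIdeal_map' ψ φ]
  · show ((graphIdeal φ).map (algebraMap (A ⊗[k] B₁) (A ⊗[k] B₀₁))).map
        (tensorMapLeft k ψ B₀₁) =
      (graphIdeal (ψ.comp φ)).map (algebraMap (A' ⊗[k] B₁) (A' ⊗[k] B₀₁))
    rw [Ideal.map_map, tensorMapLeft_comp_algebraMap_right ψ B₁ B₀₁, ← Ideal.map_map,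
      graphIdeal_map' ψ φ]

end Frozen

end Fermat.Agent.S25.H147
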